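import Fermat.Agent.S05.AddSub
import Fermat.Agent.S05.H15.SawPoint
import Fermat.Agent.S05.H63.Reduction

/-!
# S05, module M5b: the multiplicative case

Let `A` be a valuation subring of a field `L`, and `W` a Weierstrass curve over `L` in the normal
form `a₃ = a₆ = 0` with `a₁, a₂ ∈ A`, `b₂` and `2` units of `A`, and `a₄ = u * r ^ p` with `u` a
unit and `r` in the maximal ideal (`p ≥ 5` prime).  If `σ` is a field endomorphism acting trivially
on the residue field (an element of the inertia group) and fixing the coefficients, then the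
induced map on points fixes every `p`-torsion point.

The torsion-integrality results (module M3) enter as the explicit hypotheses `hM3` and `hE1`.
-/

set_option autoImplicit false

namespace Fermat.Agent.S05.H9

open WeierstrassCurve WeierstrassCurve.Affine Fermat.Agent.S05

universe u

section Valuation

variable {L : Type u} [Field L] (A : ValuationSubring L)

theorem mem_nonunits_of_unit_mul {x z : L} (hx : A.valuation x = 1)
    (h : x * z ∈ A.nonunits) : z ∈ A.nonunits := by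
  rw [A.mem_nonunits_iff] at h ⊢
  rwa [map_mul, hx, one_mul] at h

theorem mem_of_valuation_eq_one {x : L} (hx : A.valuation x = 1) : x ∈ A :=
  (A.valuation_le_one_iff x).mp hx.le

theorem not_mem_nonunits_of_valuation_eq_one {x : L} (hx : A.valuation x = 1) :
    x ∉ A.nonunits := by
  rw [A.mem_nonunits_iff, hx]
  exact lt_irrefl _

theorem valuation_eq_one_of_mem {x : L} (hx : x ∈ A) (hx' : x ∉ A.nonunits) :
    A.valuation x = 1 := by
  rcases lt_or_eq_of_le ((A.valuation_le_one_iff x).mpr hx) with h | h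
  · exact absurd (A.mem_nonunits_iff.mpr h) hx'
  · exact h

/-- An endomorphism that is trivial on the residue field maps non-integral elements to
non-integral elements. -/
theorem map_not_mem {σ : L →+* L} (hσ₂ : ∀ a ∈ A, σ a - a ∈ A.nonunits) {x : L} (hx : x ∉ A) :
    σ x ∉ A := by
  have hx0 : x ≠ 0 := fun h => hx (h ▸ A.zero_mem)
  have h1 : x⁻¹ ∈ A.nonunits := A.inv_mem_nonunits_iff.mpr (Or.inr hx)
  have h2 : σ x⁻¹ ∈ A.nonunits := by
    have := A.nonunits.add_mem (hσ₂ _ (A.nonunits_subset h1)) h1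
    rwa [sub_add_cancel] at this
  rw [map_inv₀] at h2
  rcases A.inv_mem_nonunits_iff.mp h2 with h | h
  · exact absurd ((map_eq_zero σ).mp h) hx0
  · exact h

/-- A root of a monic quadratic with integral coefficients is integral. -/
theorem mem_of_sq_add_eq {η a c : L} (ha : a ∈ A) (hc : c ∈ A) (h : η ^ 2 + a * η = c) :
    η ∈ A := by
  by_contra hη
  have := H63.sq_add_not_mem A hη ha (neg_mem hc)
  apply this
  have h0 : η ^ 2 + a * η + -c = 0 := by rw [h]; ring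
  rw [h0]
  exact A.zero_mem

/-- A root of a monic quadratic with fixed coefficients and unit discriminant is fixed by
any endomorphism that is trivial on the residue field. -/
theorem map_eq_of_sq_add_eq {σ : L →+* L} (hσ₂ : ∀ a ∈ A, σ a - a ∈ A.nonunits)
    {η a c : L} (hη : η ∈ A) (hσa : σ a = a) (hσc : σ c = c) (h : η ^ 2 + a * η = c)
    (hd : 2 * η + a ∉ A.nonunits) : σ η = η := by
  have h' : σ η ^ 2 + a * σ η = c := by
    have := congrArg σ h
    rwa [map_add, map_mul, map_pow, hσa, hσc] at this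
  have hprod : (σ η - η) * (σ η + η + a) = 0 := by
    linear_combination h' - h
  rcases mul_eq_zero.mp hprod with h0 | h0
  · exact sub_eq_zero.mp h0
  · exfalso
    apply hd
    have h1 : 2 * η + a = -(σ η - η) := by linear_combination h0
    rw [h1]
    exact A.nonunits.neg_mem (hσ₂ η hη)

end Valuation

section Curve

variable {L : Type u} [Field L] (A : ValuationSubring L) {W : Affine L}

/-- Integrality of the `y`-coordinate. -/
theorem y_mem_of_x_mem (ha₁ : W.a₁ ∈ A) (ha₂ : W.a₂ ∈ A) (ha₃ : W.a₃ ∈ A) (ha₄ : W.a₄ ∈ A)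
    (ha₆ : W.a₆ ∈ A) {x y : L} (h : W.Equation x y) (hx : x ∈ A) : y ∈ A := by
  rw [Affine.equation_iff] at h
  refine mem_of_sq_add_eq A (a := W.a₁ * x + W.a₃)
    (c := x ^ 3 + W.a₂ * x ^ 2 + W.a₄ * x + W.a₆) ?_ ?_ ?_
  · exact add_mem (mul_mem ha₁ hx) ha₃
  · exact add_mem (add_mem (add_mem (pow_mem hx 3) (mul_mem ha₂ (pow_mem hx 2)))
      (mul_mem ha₄ hx)) ha₆
  · linear_combination h

/-- In the normal form `a₃ = a₆ = 0`, `a₄ ∈ 𝔪`, `b₂` and `2` units, a point with unit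
`x`-coordinate has nonsingular reduction. -/
theorem nonsing_red_of_unit (h₃ : W.a₃ = 0) (h₆ : W.a₆ = 0) (ha₁ : W.a₁ ∈ A)
    (ha₄ : W.a₄ ∈ A.nonunits) (h2 : A.valuation (2 : L) = 1)
    {x y : L} (h : W.Equation x y) (hx : A.valuation x = 1) :
    W.a₁ * y - (3 * x ^ 2 + 2 * W.a₂ * x + W.a₄) ∉ A.nonunits ∨
      2 * y + W.a₁ * x + W.a₃ ∉ A.nonunits := by
  by_contra hcon
  rw [not_or, not_not, not_not] at hcon
  obtain ⟨he2, he1⟩ := hcon
  rw [Affine.equation_iff] at h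
  have hxA : x ∈ A := mem_of_valuation_eq_one A hx
  have h2A : (2 : L) ∈ A := mem_of_valuation_eq_one A h2
  have hb : W.b₂ = W.a₁ ^ 2 + 4 * W.a₂ := by rw [WeierstrassCurve.b₂]
  -- `4x + b₂ ∈ 𝔪`
  have h4 : 4 * x + W.b₂ ∈ A.nonunits := by
    apply mem_nonunits_of_unit_mul A (x := x ^ 2) (by rw [map_pow, hx, one_pow])
    have : x ^ 2 * (4 * x + W.b₂) =
        (2 * y + W.a₁ * x + W.a₃) * (2 * y + W.a₁ * x + W.a₃) + -(2 * 2 * x * W.a₄) := by
      rw [hb]; rw [h₃, h₆] at h; rw [h₃]; linear_combination (-4) * h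
    rw [this]
    exact A.nonunits.add_mem (A.nonunits.mul_mem he1 he1)
      (A.nonunits.neg_mem (H63.mul_mem_nonunits_of_mem_left A
        (mul_mem (mul_mem h2A h2A) hxA) ha₄))
  -- `6x + b₂ ∈ 𝔪`
  have h6 : 6 * x + W.b₂ ∈ A.nonunits := by
    apply mem_nonunits_of_unit_mul A (x := x) hx
    have : x * (6 * x + W.b₂) =
        W.a₁ * (2 * y + W.a₁ * x + W.a₃) +
          -(2 * (W.a₁ * y - (3 * x ^ 2 + 2 * W.a₂ * x + W.a₄))) + -(2 * W.a₄) := by
      rw [hb, h₃]; ring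
    rw [this]
    exact A.nonunits.add_mem (A.nonunits.add_mem
      (H63.mul_mem_nonunits_of_mem_left A ha₁ he1)
      (A.nonunits.neg_mem (H63.mul_mem_nonunits_of_mem_left A h2A he2)))
      (A.nonunits.neg_mem (H63.mul_mem_nonunits_of_mem_left A h2A ha₄))
  have h2x : 2 * x ∈ A.nonunits := by
    have : 2 * x = (6 * x + W.b₂) - (4 * x + W.b₂) := by ring
    rw [this]
    exact A.nonunits.sub_mem h6 h4
  rw [A.mem_nonunits_iff, map_mul, h2, hx, one_mul] at h2x
  exact lt_irrefl _ h2x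

/-- Points with equal coordinates are equal. -/
theorem some_eq_some {x y x' y' : L} (h : W.Nonsingular x y) (h' : W.Nonsingular x' y')
    (hx : x' = x) (hy : y' = y) : Point.some x' y' h' = Point.some x y h := by
  subst hx; subst hy; rfl

end Curve

section Main

variable {L : Type u} [Field L] [DecidableEq L] (A : ValuationSubring L) {W : Affine L}

/-- The "`E₀` case": if `Q` has `x`-coordinate outside the maximal ideal, then `τ Q - Q` lies in
the kernel of reduction. -/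
theorem map_sub_inE1 (h₃ : W.a₃ = 0) (h₆ : W.a₆ = 0) (ha₁ : W.a₁ ∈ A) (ha₂ : W.a₂ ∈ A)
    (ha₄ : W.a₄ ∈ A.nonunits) (h2 : A.valuation (2 : L) = 1)
    (σ : L →+* L) (hσ₂ : ∀ a ∈ A, σ a - a ∈ A.nonunits)
    (τ : W.Point →+ W.Point)
    (hτ : ∀ (x y : L) (h : W.Nonsingular x y),
      ∃ h' : W.Nonsingular (σ x) (σ y), τ (Point.some x y h) = Point.some (σ x) (σ y) h')
    (hE1 : ∀ P Q : W.Point, (P = 0 ∨ xOf P ∉ A) → (Q = 0 ∨ xOf Q ∉ A) →
      (P - Q = 0 ∨ xOf (P - Q) ∉ A))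
    {Q : W.Point} (hQ0 : Q ≠ 0) (hQ : xOf Q ∉ A.nonunits) :
    τ Q - Q = 0 ∨ xOf (τ Q - Q) ∉ A := by
  obtain ⟨x, y, h, rfl⟩ := exists_some_of_ne_zero hQ0
  rw [xOf_some] at hQ
  obtain ⟨h', hτQ⟩ := hτ x y h
  rw [hτQ]
  by_cases hx : x ∈ A
  · have hxu : A.valuation x = 1 := valuation_eq_one_of_mem A hx hQ
    have ha₃ : W.a₃ ∈ A := h₃ ▸ A.zero_mem
    have ha₆ : W.a₆ ∈ A := h₆ ▸ A.zero_mem
    have ha₄' : W.a₄ ∈ A := A.nonunits_subset ha₄
    have hy : y ∈ A := y_mem_of_x_mem A ha₁ ha₂ ha₃ ha₄' ha₆ h.1 hx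
    have hns := nonsing_red_of_unit A h₃ h₆ ha₁ ha₄ h2 h.1 hxu
    rcases H63.some_sub_some_eq_zero_or_X_not_mem A W ha₁ ha₂ ha₃ ha₄' h h' hx hy
      (hσ₂ x hx) (hσ₂ y hy) hns with h0 | ⟨x'', y'', h'', heq, hx''⟩
    · exact Or.inl h0
    · right
      rw [heq, xOf_some]
      exact hx''
  · refine hE1 _ _ (Or.inr ?_) (Or.inr ?_)
    · rw [xOf_some]
      exact map_not_mem A hσ₂ hx
    · rw [xOf_some]
      exact hx

/-- Dividing by `k` modulo `p`. -/
theorem map_eq_of_map_nsmul_eq {G : Type*} [AddCommGroup G] (τ : G →+ G) {p : ℕ} (hp : p.Prime)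
    {P : G} (hP : p • P = 0) {k : ℕ} (hk : ¬ p ∣ k) (h : τ (k • P) = k • P) : τ P = P := by
  have hcop : IsCoprime (k : ℤ) (p : ℤ) :=
    Nat.isCoprime_iff_coprime.mpr ((Nat.Prime.coprime_iff_not_dvd hp).mpr hk).symm
  obtain ⟨a, b, hab⟩ := hcop
  have hP' : (p : ℤ) • P = 0 := by rw [natCast_zsmul]; exact hP
  have h1 : P = a • ((k : ℤ) • P) := by
    have : P = (a * k + b * p) • P := by rw [hab, one_smul]
    rw [add_smul, mul_smul, mul_smul, hP', smul_zero, add_zero] at this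
    exact this
  have h' : τ ((k : ℤ) • P) = (k : ℤ) • P := by rw [natCast_zsmul]; exact h
  rw [h1, map_zsmul, h']

theorem nsmul_ne_zero_of_not_dvd {G : Type*} [AddCommGroup G] {p : ℕ} (hp : p.Prime)
    {P : G} (hP0 : P ≠ 0) (hP : p • P = 0) {k : ℕ} (hk : ¬ p ∣ k) : k • P ≠ 0 := by
  intro h
  apply hP0
  have := map_eq_of_map_nsmul_eq (0 : G →+ G) hp hP hk (by rw [h]; rfl)
  exact this.symm

/-- **M5b, generic form.**  The multiplicative case: in the normal form `a₃ = a₆ = 0`,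
`a₄ = u * r ^ p` with `u` a unit and `r ∈ 𝔪`, `b₂` and `2` units, every `p`-torsion point is fixed
by (the point map `τ` induced by) an endomorphism `σ` acting trivially on the residue field and
fixing the coefficients.  The hypotheses `hM3`, `hE1` are the torsion-integrality statements. -/
theorem mult_fixed_core (h₃ : W.a₃ = 0) (h₆ : W.a₆ = 0) (ha₁ : W.a₁ ∈ A) (ha₂ : W.a₂ ∈ A)
    (hb₂ : A.valuation W.b₂ = 1) {p : ℕ} (hp : p.Prime) (hp5 : 5 ≤ p)
    (h2 : A.valuation (2 : L) = 1)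
    (u r : L) (hu : A.valuation u = 1) (hr : A.valuation r < 1) (hr0 : r ≠ 0)
    (ha₄ : W.a₄ = u * r ^ p)
    (hquad : ∀ b c : L, ∃ t : L, t ^ 2 + b * t = c)
    (σ : L →+* L) (hσ₂ : ∀ a ∈ A, σ a - a ∈ A.nonunits)
    (hσa₁ : σ W.a₁ = W.a₁) (hσa₂ : σ W.a₂ = W.a₂) (hσu : σ u = u) (hσr : σ r = r)
    (τ : W.Point →+ W.Point)
    (hτ : ∀ (x y : L) (h : W.Nonsingular x y),
      ∃ h' : W.Nonsingular (σ x) (σ y), τ (Point.some x y h) = Point.some (σ x) (σ y) h')
    (hM3 : ∀ Q : W.Point, Q ≠ 0 → p • Q = 0 → xOf Q ∈ A)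
    (hE1 : ∀ P Q : W.Point, (P = 0 ∨ xOf P ∉ A) → (Q = 0 ∨ xOf Q ∉ A) →
      (P - Q = 0 ∨ xOf (P - Q) ∉ A))
    (P : W.Point) (hP : p • P = 0) : τ P = P := by
  by_cases hP0 : P = 0
  · rw [hP0, map_zero]
  -- basic facts
  have hrm : r ∈ A.nonunits := A.mem_nonunits_iff.mpr hr
  have hrA : r ∈ A := A.nonunits_subset hrm
  have h2A : (2 : L) ∈ A := mem_of_valuation_eq_one A h2
  have hp0 : p ≠ 0 := hp.ne_zero
  have hu0 : u ≠ 0 := by
    rintro rfl
    rw [map_zero] at hu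
    exact zero_ne_one hu
  have hva₄ : A.valuation W.a₄ = A.valuation r ^ p := by
    rw [ha₄, map_mul, hu, one_mul, map_pow]
  have ha₄m : W.a₄ ∈ A.nonunits := by
    rw [A.mem_nonunits_iff, hva₄]
    exact pow_lt_one₀ zero_le hr hp0
  have ha₄0 : W.a₄ ≠ 0 := by
    rw [ha₄]
    exact mul_ne_zero hu0 (pow_ne_zero _ hr0)
  -- torsion points in the kernel of reduction vanish
  have hkill : ∀ T : W.Point, p • T = 0 → (T = 0 ∨ xOf T ∉ A) → T = 0 := by
    intro T hT h
    by_contra hT0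
    rcases h with h | h
    · exact hT0 h
    · exact h (hM3 T hT0 hT)
  -- the `E₀` case for torsion points
  have hU : ∀ Q : W.Point, Q ≠ 0 → p • Q = 0 → xOf Q ∉ A.nonunits → τ Q = Q := by
    intro Q hQ0 hQ hx
    have h1 := map_sub_inE1 A h₃ h₆ ha₁ ha₂ ha₄m h2 σ hσ₂ τ hτ hE1 hQ0 hx
    have h2' : p • (τ Q - Q) = 0 := by
      rw [smul_sub, ← map_nsmul, hQ, map_zero, sub_zero]
    exact sub_eq_zero.mp (hkill _ h2' h1)
  by_cases hm : ∀ k : ℕ, ¬ p ∣ k → A.valuation (xOf (k • P)) < 1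
  swap
  · rw [not_forall] at hm
    obtain ⟨k, hm⟩ := hm
    rw [Classical.not_imp] at hm
    obtain ⟨hk, hkx⟩ := hm
    refine map_eq_of_map_nsmul_eq τ hp hP hk
      (hU _ (nsmul_ne_zero_of_not_dvd hp hP0 hP hk) ?_ ?_)
    · rw [smul_comm, hP, smul_zero]
    · rwa [A.mem_nonunits_iff]
  -- the sawtooth case
  obtain ⟨k, hk, hkv⟩ := H15.exists_multiple_val A h₃ h₆ hb₂ h2 (A.mem_nonunits_iff.mp ha₄m)
    ha₄0 hp hp5 hP0 hP hm
  refine map_eq_of_map_nsmul_eq τ hp hP hk ?_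
  have hP'0 : k • P ≠ 0 := nsmul_ne_zero_of_not_dvd hp hP0 hP hk
  have hP' : p • (k • P) = 0 := by rw [smul_comm, hP, smul_zero]
  generalize k • P = P' at hkv hP'0 hP'
  have hvx : A.valuation (xOf P') = A.valuation (r ^ 2) := by
    rw [hva₄, ← pow_mul, mul_comm, pow_mul] at hkv
    rw [map_pow]
    exact (pow_left_inj₀ zero_le zero_le hp0).mp hkv
  -- the auxiliary point `R = (r², r² η)`
  obtain ⟨w, hw⟩ : ∃ w : L, w = u * r ^ (p - 2) := ⟨_, rfl⟩
  have hwm : w ∈ A.nonunits := by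
    rw [A.mem_nonunits_iff, hw, map_mul, hu, one_mul, map_pow]
    exact pow_lt_one₀ zero_le hr (by omega)
  have hwA : w ∈ A := A.nonunits_subset hwm
  have ha₄w : W.a₄ = w * r ^ 2 := by
    rw [ha₄, hw, mul_assoc, ← pow_add]
    congr 2
    omega
  have hσw : σ w = w := by rw [hw, map_mul, map_pow, hσu, hσr]
  have hr2m : r * r ∈ A.nonunits := A.nonunits.mul_mem hrm hrm
  obtain ⟨η, hη⟩ := hquad W.a₁ (r ^ 2 + W.a₂ + w)
  have hcA : r ^ 2 + W.a₂ + w ∈ A := add_mem (add_mem (pow_mem hrA 2) ha₂) hwA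
  have hηA : η ∈ A := mem_of_sq_add_eq A ha₁ hcA hη
  have hd : 2 * η + W.a₁ ∉ A.nonunits := by
    intro hd
    have hb : W.b₂ = (2 * η + W.a₁) * (2 * η + W.a₁) + -(2 * 2 * (r * r + w)) := by
      rw [WeierstrassCurve.b₂]
      linear_combination (-4) * hη
    have : W.b₂ ∈ A.nonunits := by
      rw [hb]
      exact A.nonunits.add_mem (A.nonunits.mul_mem hd hd)
        (A.nonunits.neg_mem (H63.mul_mem_nonunits_of_mem_left A (mul_mem h2A h2A)
          (A.nonunits.add_mem hr2m hwm)))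
    exact not_mem_nonunits_of_valuation_eq_one A hb₂ this
  have hση : σ η = η :=
    map_eq_of_sq_add_eq A hσ₂ hηA hσa₁
      (by rw [map_add, map_add, map_pow, hσr, hσa₂, hσw]) hη hd
  have hd0 : 2 * η + W.a₁ ≠ 0 := fun h => hd (h ▸ A.nonunits.zero_mem)
  have hR : W.Nonsingular (r ^ 2) (r ^ 2 * η) := by
    rw [Affine.nonsingular_iff']
    refine ⟨?_, Or.inr ?_⟩
    · rw [Affine.equation_iff, h₃, h₆, ha₄w]
      linear_combination r ^ 4 * hη
    · rw [h₃]
      have : 2 * (r ^ 2 * η) + W.a₁ * r ^ 2 + 0 = r ^ 2 * (2 * η + W.a₁) := by ring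
      rw [this]
      exact mul_ne_zero (pow_ne_zero 2 hr0) hd0
  have hτR : τ (Point.some _ _ hR) = Point.some _ _ hR := by
    obtain ⟨h', hh⟩ := hτ _ _ hR
    rw [hh]
    exact some_eq_some hR h' (by rw [map_pow, hσr]) (by rw [map_mul, map_pow, hσr, hση])
  have hR0 : Point.some _ _ hR ≠ 0 := Point.some_ne_zero hR
  have hxR' : xOf (Point.some _ _ hR) = r ^ 2 := xOf_some hR
  generalize Point.some _ _ hR = R at hτR hR0 hxR'
  -- conclude
  by_cases hxeq : xOf P' = xOf R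
  · rcases (xOf_eq_iff hP'0 hR0).mp hxeq with h | h
    · rw [h, hτR]
    · rw [h, map_neg, hτR]
  obtain ⟨hadd0, hsub0, -, hsum⟩ := xOf_addsub hP'0 hR0 hxeq
  have hkey : xOf (P' + R) ∉ A.nonunits ∨ xOf (P' - R) ∉ A.nonunits := by
    by_contra hcon
    rw [not_or, not_not, not_not] at hcon
    have hS : xOf (P' + R) + xOf (P' - R) ∈ A.nonunits := A.nonunits.add_mem hcon.1 hcon.2
    obtain ⟨e, he⟩ : ∃ e : L, e = xOf P' / r ^ 2 := ⟨_, rfl⟩
    have hr2 : r ^ 2 ≠ 0 := pow_ne_zero 2 hr0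
    have hxe : xOf P' = e * r ^ 2 := by rw [he, div_mul_cancel₀ _ hr2]
    have hev : A.valuation e = 1 := by
      rw [he, map_div₀, hvx]
      exact div_self ((Valuation.ne_zero_iff _).mpr hr2)
    have heA : e ∈ A := mem_of_valuation_eq_one A hev
    have he1A : e - 1 ∈ A := sub_mem heA A.one_mem
    have he1A' : e + 1 ∈ A := add_mem heA A.one_mem
    have hb₄ : W.b₄ = 2 * (w * r ^ 2) := by rw [WeierstrassCurve.b₄, h₃, ha₄w]; ring
    have hb₆ : W.b₆ = 0 := by rw [WeierstrassCurve.b₆, h₃, h₆]; ring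
    have hmain : W.b₂ * e = (xOf (P' + R) + xOf (P' - R)) * ((e - 1) * (e - 1)) +
        -(2 * (e + 1) * e * (r * r)) + -(2 * (e + 1) * w) := by
      apply mul_left_cancel₀ (pow_ne_zero 4 hr0)
      rw [hxR', hxe, hb₄, hb₆] at hsum
      linear_combination (-1 : L) * hsum
    have : W.b₂ * e ∈ A.nonunits := by
      rw [hmain]
      refine A.nonunits.add_mem (A.nonunits.add_mem ?_ ?_) ?_
      · exact H63.mul_mem_nonunits_of_mem_right A hS (mul_mem he1A he1A)
      · exact A.nonunits.neg_mem (H63.mul_mem_nonunits_of_mem_left A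
          (mul_mem (mul_mem h2A he1A') heA) hr2m)
      · exact A.nonunits.neg_mem (H63.mul_mem_nonunits_of_mem_left A (mul_mem h2A he1A') hwm)
    rw [A.mem_nonunits_iff, map_mul, hb₂, hev, one_mul] at this
    exact lt_irrefl _ this
  have hfin : ∀ Q : W.Point, Q ≠ 0 → xOf Q ∉ A.nonunits → τ Q - Q = τ P' - P' → τ P' = P' := by
    intro Q hQ0 hQx hQeq
    have h1 := map_sub_inE1 A h₃ h₆ ha₁ ha₂ ha₄m h2 σ hσ₂ τ hτ hE1 hQ0 hQx
    rw [hQeq] at h1
    have h2' : p • (τ P' - P') = 0 := by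
      rw [smul_sub, ← map_nsmul, hP', map_zero, sub_zero]
    exact sub_eq_zero.mp (hkill _ h2' h1)
  rcases hkey with h | h
  · exact hfin _ hadd0 h (by rw [map_add, hτR]; abel)
  · exact hfin _ hsub0 h (by rw [map_sub, hτR]; abel)

end Main

section Quadratic

/-- Monic quadratics have roots in an algebraically closed field. -/
theorem exists_sq_add_eq {K : Type u} [Field K] [IsAlgClosed K] (b c : K) :
    ∃ t : K, t ^ 2 + b * t = c := by
  obtain ⟨t, ht⟩ := IsAlgClosed.exists_root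
    (Polynomial.C 1 * Polynomial.X ^ 2 + Polynomial.C b * Polynomial.X + Polynomial.C (-c))
    (by rw [Polynomial.degree_quadratic one_ne_zero]; decide)
  refine ⟨t, ?_⟩
  simp only [Polynomial.IsRoot, Polynomial.eval_add, Polynomial.eval_mul, Polynomial.eval_C,
    Polynomial.eval_pow, Polynomial.eval_X] at ht
  linear_combination ht

end Quadratic

section Galois

open scoped WeierstrassCurve.Affine

universe r s v

variable {R : Type r} {S : Type s} {K : Type v} [CommRing R] [CommRing S] [Field K]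
  [DecidableEq K] [Algebra R S] [Algebra R K] [Algebra S K] [IsScalarTower R S K]

omit [DecidableEq K] in
theorem algEquiv_algebraMap_base (σ : K ≃ₐ[S] K) (a : R) :
    σ (algebraMap R K a) = algebraMap R K a := by
  rw [IsScalarTower.algebraMap_apply R S K, σ.commutes]

/-- **M5b, Galois form** (for the Prelude action of `K ≃ₐ[S] K` on `(W'⁄K).Point`), with the
torsion-integrality statements `hM3`, `hE1` (module M3) as hypotheses. -/
theorem mult_fixed_of_M3 (W' : Affine R) (A : ValuationSubring K)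
    (h₃ : W'.a₃ = 0) (h₆ : W'.a₆ = 0)
    (ha₁ : algebraMap R K W'.a₁ ∈ A) (ha₂ : algebraMap R K W'.a₂ ∈ A)
    (hb₂ : A.valuation (algebraMap R K W'.b₂) = 1)
    {p : ℕ} (hp : p.Prime) (hp5 : 5 ≤ p) (h2 : A.valuation (2 : K) = 1)
    (u r : R) (hu : A.valuation (algebraMap R K u) = 1)
    (hr : A.valuation (algebraMap R K r) < 1) (hr0 : algebraMap R K r ≠ 0)
    (ha₄ : W'.a₄ = u * r ^ p)
    (hquad : ∀ b c : K, ∃ t : K, t ^ 2 + b * t = c)
    (σ : K ≃ₐ[S] K) (hσ₂ : ∀ a ∈ A, σ a - a ∈ A.nonunits)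
    (hM3 : ∀ Q : (W'⁄K).Point, Q ≠ 0 → p • Q = 0 → xOf Q ∈ A)
    (hE1 : ∀ P Q : (W'⁄K).Point, (P = 0 ∨ xOf P ∉ A) → (Q = 0 ∨ xOf Q ∉ A) →
      (P - Q = 0 ∨ xOf (P - Q) ∉ A))
    (P : (W'⁄K).Point) (hP : p • P = 0) : σ • P = P := by
  have hb : (W'⁄K).b₂ = algebraMap R K W'.b₂ := WeierstrassCurve.map_b₂ _ _
  have ha : (W'⁄K).a₄ = algebraMap R K u * algebraMap R K r ^ p := by
    show algebraMap R K W'.a₄ = _
    rw [ha₄, map_mul, map_pow]
  exact mult_fixed_core A (W := W'⁄K) (show algebraMap R K W'.a₃ = 0 by rw [h₃, map_zero])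
    (show algebraMap R K W'.a₆ = 0 by rw [h₆, map_zero]) ha₁ ha₂ (hb ▸ hb₂) hp hp5 h2
    (algebraMap R K u) (algebraMap R K r) hu hr hr0 ha hquad
    (σ : K →+* K) hσ₂ (algEquiv_algebraMap_base σ _) (algEquiv_algebraMap_base σ _)
    (algEquiv_algebraMap_base σ _) (algEquiv_algebraMap_base σ _)
    (Point.map σ.toAlgHom) (fun x y h => ⟨_, rfl⟩) hM3 hE1 P hP

end Galois

end Fermat.Agent.S05.H9
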