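import Fermat.Agent.S05.H9.MultCase
import Fermat.Agent.S05.H60.M3
import Fermat.Prelude.Def_FLTPrelim_GaloisRep

/-!
# S05, module M5b: `mult_fixed` in the shape of the shared interface

The multiplicative case for a curve over `ℚ` and the Prelude Galois action: inertia fixes the
`p`-torsion points of a curve in the normal form `a₃ = a₆ = 0`, `a₄ = u * r ^ p`.
-/

set_option autoImplicit false

namespace Fermat.Agent.S05.H9

open WeierstrassCurve WeierstrassCurve.Affine Fermat.Agent.S05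

open scoped WeierstrassCurve.Affine

universe u

/-- **M5b**, exact shape of the shared S05 interface. -/
theorem mult_fixed {L : Type u} [Field L] [DecidableEq L] [Algebra ℚ L] [IsAlgClosed L]
    (W₀ : WeierstrassCurve.Affine ℚ) (A : ValuationSubring L) (h₃ : W₀.a₃ = 0) (h₆ : W₀.a₆ = 0)
    (ha₁ : algebraMap ℚ L W₀.a₁ ∈ A) (ha₂ : algebraMap ℚ L W₀.a₂ ∈ A)
    (hb₂ : A.valuation (algebraMap ℚ L W₀.b₂) = 1) {p : ℕ} (hp : p.Prime) (hp5 : 5 ≤ p)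
    (hpA : A.valuation (p : L) = 1) (h2 : A.valuation (2 : L) = 1) (u r : ℚ)
    (hu : A.valuation (algebraMap ℚ L u) = 1) (hr : A.valuation (algebraMap ℚ L r) < 1)
    (hr0 : r ≠ 0) (ha₄ : W₀.a₄ = u * r ^ p) (σ : L ≃ₐ[ℚ] L) (_hσ₁ : ∀ a ∈ A, σ a ∈ A)
    (hσ₂ : ∀ a ∈ A, σ a - a ∈ A.nonunits) (P : (W₀⁄L).Point) (hP : p • P = 0) :
    σ • P = P := by
  have hp2 : p ≠ 2 := by omega
  have hc₁ : (W₀⁄L).a₁ ∈ A := ha₁
  have hc₂ : (W₀⁄L).a₂ ∈ A := ha₂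
  have hc₃ : (W₀⁄L).a₃ ∈ A := by
    show algebraMap ℚ L W₀.a₃ ∈ A
    rw [h₃, map_zero]
    exact A.zero_mem
  have hc₆ : (W₀⁄L).a₆ ∈ A := by
    show algebraMap ℚ L W₀.a₆ ∈ A
    rw [h₆, map_zero]
    exact A.zero_mem
  have hc₄ : (W₀⁄L).a₄ ∈ A := by
    show algebraMap ℚ L W₀.a₄ ∈ A
    rw [ha₄, map_mul, map_pow]
    exact mul_mem (mem_of_valuation_eq_one A hu)
      (pow_mem ((A.valuation_le_one_iff _).mp hr.le) p)
  have hr0' : algebraMap ℚ L r ≠ 0 := by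
    rwa [Ne, map_eq_zero]
  exact mult_fixed_of_M3 (S := ℚ) W₀ A h₃ h₆ ha₁ ha₂ hb₂ hp hp5 h2 u r hu hr hr0' ha₄
    exists_sq_add_eq σ hσ₂
    (fun Q hQ0 hQ => H60.torsion_integral' A hc₁ hc₂ hc₃ hc₄ hc₆ hp hp2 hpA hQ0 hQ)
    (fun P Q hP hQ => H60.InE1.sub A hc₁ hc₂ hc₃ hc₄ hc₆ hP hQ) P hP

end Fermat.Agent.S05.H9
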